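import Mathlib

/-!
# S18 / b2 (helper425): a matrix lemma

`(X - c)^s ∣ det M` as soon as the kernel of the specialised matrix `M(c)` has dimension `≥ s`.
Mathlib-only.
-/

namespace Fermat.Agent.S18.H425

open Polynomial Matrix

variable {k : Type*} [Field k] {ι : Type*} [Fintype ι] [DecidableEq ι]

/-- Cramer-type identity: replacing column `j` of `M` by `M *ᵥ v` multiplies the determinant
by `v j`. -/
theorem det_updateCol_mulVec {R : Type*} [CommRing R] (M : Matrix ι ι R) (v : ι → R) (j : ι) :
    (M.updateCol j (M *ᵥ v)).det = M.det * v j := by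
  have h := Matrix.cramer_apply M (M *ᵥ v) j
  rw [← h, Matrix.cramer_eq_adjugate_mulVec, Matrix.mulVec_mulVec, Matrix.adjugate_mul,
    Matrix.smul_mulVec, Matrix.one_mulVec]
  simp

/-- The kernel of a linear functional has codimension at most one. -/
theorem finrank_ker_functional_ge {V : Type*} [AddCommGroup V] [Module k V]
    [FiniteDimensional k V] (f : V →ₗ[k] k) :
    Module.finrank k V ≤ Module.finrank k (LinearMap.ker f) + 1 := by
  have h := LinearMap.finrank_range_add_finrank_ker f
  have h1 : Module.finrank k (LinearMap.range f) ≤ 1 := by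
    calc Module.finrank k (LinearMap.range f) ≤ Module.finrank k k := Submodule.finrank_le _
      _ = 1 := Module.finrank_self k
  omega

theorem pow_dvd_det_of_le_finrank_ker (s : ℕ) : ∀ (M : Matrix ι ι k[X]) (c : k),
    s ≤ Module.finrank k (LinearMap.ker (Matrix.toLin' (M.map (eval c)))) →
    (X - C c) ^ s ∣ M.det := by
  induction s with
  | zero => intro M c _; simp
  | succ s ih =>
    intro M c hs
    set Mc : Matrix ι ι k := M.map (eval c) with hMc
    set W := LinearMap.ker (Matrix.toLin' Mc) with hW
    -- a nonzero vector in the kernel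
    have hpos : 0 < Module.finrank k W := by omega
    obtain ⟨⟨v, hvW⟩, hv0⟩ : ∃ v : W, v ≠ 0 := by
      have := Module.finrank_pos_iff_exists_ne_zero.mp hpos
      exact this
    have hv0' : v ≠ 0 := fun h => hv0 (Subtype.ext h)
    obtain ⟨j, hj⟩ : ∃ j, v j ≠ 0 := by
      by_contra hcon
      push Not at hcon
      exact hv0' (funext hcon)
    have hMv : Mc *ᵥ v = 0 := by
      have := hvW
      rw [hW, LinearMap.mem_ker, Matrix.toLin'_apply] at this
      exact this
    -- the polynomial vector
    set v' : ι → k[X] := fun i => C (v i) with hv'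
    have hroot : ∀ i, (X - C c) ∣ (M *ᵥ v') i := by
      intro i
      rw [Polynomial.dvd_iff_isRoot, Polynomial.IsRoot.def]
      have h1 : eval c ((M *ᵥ v') i) = (Mc *ᵥ v) i := by
        simp only [Matrix.mulVec, dotProduct, hv', hMc, Matrix.map_apply]
        rw [Polynomial.eval_finsetSum]
        simp
      rw [h1, hMv]; rfl
    choose w hw using hroot
    have hw' : M *ᵥ v' = (X - C c) • w := by
      funext i
      simp [hw i]
    set M' : Matrix ι ι k[X] := M.updateCol j w with hM'
    have hdet : M.det * C (v j) = (X - C c) * M'.det := by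
      have h1 := det_updateCol_mulVec M v' j
      rw [hw', Matrix.det_updateCol_smul] at h1
      rw [← h1]
    -- kernel of the new specialised matrix
    set Mc' : Matrix ι ι k := M'.map (eval c) with hMc'
    have hker : ∀ u : ι → k, Mc *ᵥ u = 0 → u j = 0 → Mc' *ᵥ u = 0 := by
      intro u hu huj
      funext i
      have hi := congrFun hu i
      simp only [Matrix.mulVec, dotProduct, Pi.zero_apply] at hi ⊢
      rw [← hi]
      refine Finset.sum_congr rfl fun l _ => ?_
      by_cases hl : l = j
      · subst hl; simp [huj]
      · simp [hMc', hM', hMc, hl]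
    -- the functional `u ↦ u j` on `W`
    let f : W →ₗ[k] k := (LinearMap.proj j).comp W.subtype
    have hf := finrank_ker_functional_ge (k := k) f
    let g : LinearMap.ker f →ₗ[k] LinearMap.ker (Matrix.toLin' Mc') :=
      LinearMap.codRestrict _ (W.subtype.comp (LinearMap.ker f).subtype) (by
        rintro ⟨⟨u, huW⟩, huf⟩
        rw [LinearMap.mem_ker, Matrix.toLin'_apply]
        refine hker u ?_ ?_
        · rw [hW, LinearMap.mem_ker, Matrix.toLin'_apply] at huW
          exact huW
        · simpa [f] using huf)
    have hg : Function.Injective g := by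
      intro a b hab
      have := congrArg Subtype.val hab
      simp only [g, LinearMap.codRestrict_apply, LinearMap.comp_apply, Submodule.subtype_apply]
        at this
      exact Subtype.ext (Subtype.ext this)
    have hle := LinearMap.finrank_le_finrank_of_injective hg
    have hs' : s ≤ Module.finrank k (LinearMap.ker (Matrix.toLin' (M'.map (eval c)))) := by
      rw [← hMc']
      omega
    obtain ⟨q, hq⟩ := ih M' c hs'
    have hunit : IsUnit (C (v j) : k[X]) := Polynomial.isUnit_C.mpr (isUnit_iff_ne_zero.mpr hj)
    have hdvd : (X - C c) ^ (s + 1) ∣ M.det * C (v j) := by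
      rw [hdet, hq, pow_succ]
      exact ⟨q, by ring⟩
    exact (hunit.dvd_mul_right).mp hdvd

/-- Rank form: `(X - c)^(n - rank M(c)) ∣ det M`. -/
theorem pow_sub_rank_dvd_det (M : Matrix ι ι k[X]) (c : k) :
    (X - C c) ^ (Fintype.card ι - (M.map (eval c)).rank) ∣ M.det := by
  refine pow_dvd_det_of_le_finrank_ker _ M c ?_
  have h := LinearMap.finrank_range_add_finrank_ker (Matrix.toLin' (M.map (eval c)))
  rw [Module.finrank_fintype_fun_eq_card] at h
  have h2 : (M.map (eval c)).rank = Module.finrank k (LinearMap.range (Matrix.toLin' (M.map (eval c)))) := by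
    rw [Matrix.rank, Matrix.toLin'_apply']
  omega

/-- root multiplicity form. -/
theorem le_rootMultiplicity_det (M : Matrix ι ι k[X]) (c : k) (hM : M.det ≠ 0) (s : ℕ)
    (hs : s ≤ Module.finrank k (LinearMap.ker (Matrix.toLin' (M.map (eval c))))) :
    s ≤ M.det.rootMultiplicity c :=
  (Polynomial.le_rootMultiplicity_iff hM).mpr (pow_dvd_det_of_le_finrank_ker s M c hs)

end Fermat.Agent.S18.H425
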