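import Mathlib

/-!
# S18 (helper425): reduction of the torsion statement to PRIME exponents

`eq_zero_of_prime_case`: for an additive homomorphism `f : G →+ H` and `ℓ : ℕ`, if
`p • z = 0 → f z = 0 → z = 0` holds for all primes `p` with `¬ ℓ ∣ p`, then
`m • z = 0 → f z = 0 → z = 0` holds for all `m` with `¬ ℓ ∣ m`.

Consequence for the row: the frozen S18 (with `f = ModularCurve.reductionModL A N`) only needs
`CoreStatement M A p` / `AlgMainStatement` for PRIME exponents `p`; no induction on `m`
(and no enlargement of the constant field) is needed inside ALG or GLUE.  Mathlib-only.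
-/

set_option autoImplicit false

namespace Fermat.Agent.S18.H425

theorem eq_zero_of_prime_case {G H : Type*} [AddCommGroup G] [AddCommGroup H] (f : G →+ H)
    (ℓ : ℕ)
    (hprime : ∀ p : ℕ, p.Prime → ¬ ℓ ∣ p → ∀ z : G, p • z = 0 → f z = 0 → z = 0) :
    ∀ m : ℕ, ¬ ℓ ∣ m → ∀ z : G, m • z = 0 → f z = 0 → z = 0 := by
  intro m
  induction m using Nat.strong_induction_on with
  | _ m ih =>
    intro hm z hmz hfz
    rcases Nat.lt_or_ge m 2 with h2 | h2
    · interval_cases m
      · exact absurd (dvd_zero ℓ) hm
      · simpa using hmz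
    · have hp : (Nat.minFac m).Prime := Nat.minFac_prime (by omega)
      obtain ⟨m', hm'⟩ := Nat.minFac_dvd m
      have hm'pos : 0 < m' := by
        rcases Nat.eq_zero_or_pos m' with h | h
        · rw [h, mul_zero] at hm'; omega
        · exact h
      have hlt : m' < m := by
        have h1 : 2 ≤ Nat.minFac m := hp.two_le
        calc m' < 2 * m' := by omega
          _ ≤ Nat.minFac m * m' := Nat.mul_le_mul_right m' h1
          _ = m := hm'.symm
      have hℓp : ¬ ℓ ∣ Nat.minFac m := fun h => hm (h.trans (Nat.minFac_dvd m))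
      have hℓm' : ¬ ℓ ∣ m' := fun h => hm (hm' ▸ h.mul_left _)
      have hz' : m' • z = 0 := by
        apply hprime (Nat.minFac m) hp hℓp (m' • z)
        · rw [← mul_nsmul', ← hm']; exact hmz
        · rw [map_nsmul, hfz, nsmul_zero]
      exact ih m' hlt hℓm' z hz' hfz

end Fermat.Agent.S18.H425
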